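/-
P-MW row 679 (MW-GT, owner helper68): interfaces for the proof of
`Fermat.Agent.H92.MW.GTPrincipleStatement`.  Nothing is proved here.

Architecture:
* `GTHeightStatement`   (leaf, Mathlib only): homogeneous identities => height inequality.
* `GTClearStatement`    (leaf, Mathlib only): partition of unity in `ℚ[a_i / b]` => homogeneous
  identity `b ^ (M + 1) = ∑ G_i(a, b) a_i` in `𝓢`.
* `QbarValRingStatement` (leaf, Mathlib only): a valuation ring of an algebraically closed field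
  containing `ℚ` whose residue classes are algebraic is a test object.
* `ChevalleyAlgStatement` (refined Chevalley extension theorem, Mathlib only).
* `GTIdentityStatement` : the valuative criterion (assembly of the previous three).
-/
import Fermat.Agent.H92.MW.CoreInterfaces

set_option autoImplicit false

noncomputable section

namespace Fermat.Agent.H68.GT

open Fermat.Agent.H92.MW

/-- One half of the hypothesis of the GT principle, for a single element `b`: at every point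
with values in a test object, `|b| ≤ max_i |a_i|`. -/
def ValDominates (𝓢 : Type) [CommRing 𝓢] [Algebra ℚ 𝓢] {ιA : Type} (a : ιA → 𝓢) (b : 𝓢) :
    Prop :=
  ∀ (𝒦 : Type) [Field 𝒦] [Algebra ℚ 𝒦] [IsAlgClosed 𝒦] (V : ValuationSubring 𝒦),
    IsQbarValRing V → ∀ y : 𝓢 →ₐ[ℚ] 𝒦, ∃ i, V.valuation (y b) ≤ V.valuation (y (a i))

/-- The homogeneous identity expressing that `b` is "integral over the system `a`":
`b ^ (M + 1) = ∑ i, G_i(a, b) * a_i` with `G_i` homogeneous of degree `M` in the variables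
`none ↦ b`, `some i ↦ a i`. -/
def HasHomIdentity (𝓢 : Type) [CommRing 𝓢] [Algebra ℚ 𝓢] {ιA : Type} [Fintype ιA]
    (a : ιA → 𝓢) (b : 𝓢) : Prop :=
  ∃ (M : ℕ) (G : ιA → MvPolynomial (Option ιA) ℚ), (∀ i, (G i).IsHomogeneous M) ∧
    b ^ (M + 1) = ∑ i, MvPolynomial.aeval (fun o : Option ιA => o.elim b a) (G i) * a i

/-- **GT-ID** (valuative criterion): `ValDominates` implies the homogeneous identity. -/
def GTIdentityStatement : Prop :=
  ∀ (𝓢 : Type) [CommRing 𝓢] [Algebra ℚ 𝓢] (ιA : Type) [Fintype ιA] (a : ιA → 𝓢) (b : 𝓢),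
    ValDominates 𝓢 a b → HasHomIdentity 𝓢 a b

/-- the fraction `a_i / b` in `𝓢[1/b]` -/
def frac {𝓢 : Type} [CommRing 𝓢] (b : 𝓢) (x : 𝓢) : Localization.Away b :=
  Localization.mk x (⟨b, Submonoid.mem_powers b⟩ : Submonoid.powers b)

/-- **GT-CLEAR** (leaf, Mathlib only): if `1 = ∑ i, c_i * (a_i / b)` in `𝓢[1/b]` with all
`c_i ∈ ℚ[a_i / b : i]`, then `b` satisfies a homogeneous identity over `a`. -/
def GTClearStatement : Prop :=
  ∀ (𝓢 : Type) [CommRing 𝓢] [Algebra ℚ 𝓢] (ιA : Type) [Fintype ιA] (a : ιA → 𝓢) (b : 𝓢)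
    (c : ιA → Localization.Away b),
    (∀ i, c i ∈ Algebra.adjoin ℚ (Set.range fun i => frac b (a i))) →
    ∑ i, c i * frac b (a i) = 1 →
    HasHomIdentity 𝓢 a b

/-- **GT-HEIGHT** (leaf, Mathlib only): homogeneous identities `xb_j ^ (M + 1) = ∑ G_ji(xa, xb) xa_i`
give `h(xb) ≤ h(xa) + C` with `C` depending only on `G`. -/
def GTHeightStatement : Prop :=
  ∀ (ιA ιB : Type) [Fintype ιA] [Fintype ιB] (M : ℕ)
    (G : ιB → ιA → MvPolynomial (ιA ⊕ ιB) ℚ), (∀ j i, (G j i).IsHomogeneous M) →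
    ∃ C : ℝ, ∀ (xa : ιA → ℚ) (xb : ιB → ℚ),
      (∀ j, (xb j) ^ (M + 1) = ∑ i, MvPolynomial.eval (Sum.elim xa xb) (G j i) * xa i) →
      Height.logHeight xb ≤ Height.logHeight xa + C

/-- **GT-QVR** (leaf, Mathlib only): a valuation ring `V` of an algebraically closed field,
containing `ℚ`, all of whose elements are algebraic modulo the maximal ideal, is a test object. -/
def QbarValRingStatement : Prop :=
  ∀ (𝒦 : Type) [Field 𝒦] [Algebra ℚ 𝒦] [IsAlgClosed 𝒦] (V : ValuationSubring 𝒦),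
    (∀ q : ℚ, algebraMap ℚ 𝒦 q ∈ V) →
    (∀ x ∈ V, ∃ p : Polynomial ℤ, p ≠ 0 ∧ Polynomial.aeval x p ∈ V.nonunits) →
    IsQbarValRing V

/-- **GT-CHEV** (refined Chevalley extension theorem, Mathlib only): a maximal ideal `𝔮` of a
finitely generated `ℚ`-algebra `B` containing the kernel of `f : B → K` is the centre of a
valuation ring of `K` whose residue classes are algebraic over `ℚ`. -/
def ChevalleyAlgStatement : Prop :=
  ∀ (K : Type) [Field K] [Algebra ℚ K] (B : Type) [CommRing B] [Algebra ℚ B]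
    [Algebra.FiniteType ℚ B] (f : B →ₐ[ℚ] K) (𝔮 : Ideal B), 𝔮.IsMaximal → RingHom.ker f ≤ 𝔮 →
    ∃ V : ValuationSubring K, (∀ b, f b ∈ V) ∧ (∀ b ∈ 𝔮, f b ∈ V.nonunits) ∧
      (∀ x ∈ V, ∃ p : Polynomial ℤ, p ≠ 0 ∧ Polynomial.aeval x p ∈ V.nonunits)

/-- **GT-CHEV-CORE** (Zorn): a local subring with algebraic residue field is dominated by a
valuation ring with algebraic residue classes. -/
def ChevalleyCoreStatement : Prop :=
  ∀ (K : Type) [Field K] (R : LocalSubring K),
    Algebra.IsAlgebraic ℤ (IsLocalRing.ResidueField R.toSubring) →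
    ∃ V : ValuationSubring K, R ≤ V.toLocalSubring ∧
      (∀ x ∈ V, ∃ p : Polynomial ℤ, p ≠ 0 ∧ Polynomial.aeval x p ∈ V.nonunits)

/-- **GT-HALF**: one half of the GT principle. -/
def GTHalfStatement : Prop :=
  ∀ (𝓢 : Type) [CommRing 𝓢] [Algebra ℚ 𝓢] (ιA ιB : Type) [Fintype ιA] [Fintype ιB]
    (a : ιA → 𝓢) (b : ιB → 𝓢), (∀ j, ValDominates 𝓢 a (b j)) →
    ∃ C : ℝ, ∀ (y : 𝓢 →ₐ[ℚ] QQbar) (lam : QQbar) (xa : ιA → ℚ) (xb : ιB → ℚ), lam ≠ 0 →
      (∀ i, algebraMap ℚ QQbar (xa i) = lam * y (a i)) →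
      (∀ j, algebraMap ℚ QQbar (xb j) = lam * y (b j)) →
      Height.logHeight xb ≤ Height.logHeight xa + C

end Fermat.Agent.H68.GT

end
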