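/-
P-MW row 679 (MW-GT): refined Chevalley extension theorem, Zorn core.

A local subring `R` of a field `K` whose residue field is algebraic over `ℤ` (i.e. over the prime
field) is dominated by a valuation ring of `K` with the same property.
-/
import Fermat.Agent.H68.MW.GTInterfaces

set_option autoImplicit false
set_option linter.style.haveILetI false

noncomputable section

namespace Fermat.Agent.H68.GT

open IsLocalRing Polynomial

variable {K : Type} [Field K]

/-- elementwise form of "the residue field is algebraic over `ℤ`" -/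
def AlgResZ (A : Subring K) : Prop :=
  ∀ a : A, ∃ p : ℤ[X], p ≠ 0 ∧ ¬ IsUnit (Polynomial.aeval a p)

theorem algResZ_of_isAlgebraic (A : Subring K) [IsLocalRing A]
    (h : Algebra.IsAlgebraic ℤ (ResidueField A)) : AlgResZ A := by
  intro a
  obtain ⟨p, hp, hpa⟩ := h.1 (residue A a)
  refine ⟨p, hp, fun hu => ?_⟩
  have h1 : residue A (Polynomial.aeval a p) = Polynomial.aeval (residue A a) p := by
    rw [Polynomial.aeval_def, Polynomial.aeval_def, Polynomial.hom_eval₂]
    congr 1
  have h2 : IsUnit (residue A (Polynomial.aeval a p)) := hu.map _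
  rw [h1, hpa] at h2
  exact not_isUnit_zero h2

theorem isAlgebraic_of_algResZ (A : Subring K) [IsLocalRing A] (h : AlgResZ A) :
    Algebra.IsAlgebraic ℤ (ResidueField A) := by
  refine ⟨fun x => ?_⟩
  obtain ⟨a, rfl⟩ := residue_surjective x
  obtain ⟨p, hp, hpa⟩ := h a
  refine ⟨p, hp, ?_⟩
  have h1 : residue A (Polynomial.aeval a p) = Polynomial.aeval (residue A a) p := by
    rw [Polynomial.aeval_def, Polynomial.aeval_def, Polynomial.hom_eval₂]
    congr 1
  rw [← h1]
  exact (residue_eq_zero_iff _).mpr hpa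

/-- `aeval` commutes with the inclusion of subrings -/
theorem aeval_inclusion {A B : Subring K} (h : A ≤ B) (a : A) (p : ℤ[X]) :
    Polynomial.aeval (Subring.inclusion h a) p = Subring.inclusion h (Polynomial.aeval a p) := by
  rw [Polynomial.aeval_def, Polynomial.aeval_def, Polynomial.hom_eval₂]
  congr 1

theorem aeval_coe {A : Subring K} (a : A) (p : ℤ[X]) :
    Polynomial.aeval (a : K) p = ((Polynomial.aeval a p : A) : K) := by
  have : Polynomial.aeval (A.subtype a) p = A.subtype (Polynomial.aeval a p) := by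
    rw [Polynomial.aeval_def, Polynomial.aeval_def, Polynomial.hom_eval₂]
    congr 1
  exact this

/-- the set over which Zorn's lemma runs -/
def chevSet (R : LocalSubring K) : Set (LocalSubring K) :=
  {R' | R ≤ R' ∧ AlgResZ R'.toSubring}

theorem chev_chain (R : LocalSubring K) (c : Set (LocalSubring K)) (hc : c ⊆ chevSet R)
    (H : IsChain (· ≤ ·) c) (y : LocalSubring K) (hy : y ∈ c) :
    ∃ ub ∈ chevSet R, ∀ z ∈ c, z ≤ ub := by
  have inst : Nonempty c := ⟨⟨y, hy⟩⟩
  have hdir := H.directed.mono_comp _ LocalSubring.toSubring_mono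
  have hloc : IsLocalRing (⨆ i : c, i.1.toSubring : Subring K) := by
    refine ⟨?_⟩
    intro ⟨a, ha⟩ ⟨b, hb⟩ e
    obtain ⟨A, haA : a ∈ A.1.toSubring⟩ := (Subring.mem_iSup_of_directed hdir).mp ha
    obtain ⟨B, hbB : b ∈ B.1.toSubring⟩ := (Subring.mem_iSup_of_directed hdir).mp hb
    obtain ⟨C, hCA, hCB⟩ := hdir A B
    refine (C.1.2.2 (a := ⟨a, hCA haA⟩) (b := ⟨b, hCB hbB⟩) (Subtype.ext congr(($e).1))).imp ?_ ?_
    · exact fun h ↦ h.map (Subring.inclusion (le_iSup (fun i : c ↦ i.1.toSubring) C))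
    · exact fun h ↦ h.map (Subring.inclusion (le_iSup (fun i : c ↦ i.1.toSubring) C))
  have hub : ∀ A ∈ c, A ≤ @LocalSubring.mk _ _ (⨆ i : c, i.1.toSubring) hloc := by
    intro A hA
    refine ⟨le_iSup (fun i : c ↦ i.1.toSubring) ⟨A, hA⟩, ⟨?_⟩⟩
    rintro ⟨a, haA⟩ h
    obtain ⟨⟨b, hb⟩, e⟩ := isUnit_iff_exists_inv.mp h
    obtain ⟨B, hbB : b ∈ B.1.toSubring⟩ := (Subring.mem_iSup_of_directed hdir).mp hb
    obtain ⟨C, hCA, hCB⟩ := H.directed ⟨A, hA⟩ B
    apply hCA.2.1
    exact isUnit_iff_exists_inv.mpr ⟨⟨b, hCB.1 hbB⟩, Subtype.ext congr(($e).1)⟩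
  refine ⟨@LocalSubring.mk _ _ (⨆ i : c, i.1.toSubring) hloc, ⟨?_, ?_⟩, hub⟩
  · exact (hc hy).1.trans (hub y hy)
  · rintro ⟨a, ha⟩
    obtain ⟨A, haA : a ∈ A.1.toSubring⟩ := (Subring.mem_iSup_of_directed hdir).mp ha
    obtain ⟨p, hp, hpa⟩ := (hc A.2).2 ⟨a, haA⟩
    refine ⟨p, hp, fun hu => hpa ?_⟩
    have hAle := hub A.1 A.2
    have := aeval_inclusion hAle.1 ⟨a, haA⟩ p
    have h3 : IsUnit (Subring.inclusion hAle.1 (Polynomial.aeval (⟨a, haA⟩ : A.1.toSubring) p)) := by
      rw [← this]; exact hu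
    exact hAle.2.1 _ h3

/-- algebraicity over `ℤ` is transported by surjective ring homomorphisms -/
theorem isAlgebraic_int_of_surjective {A B : Type} [CommRing A] [CommRing B] (e : A →+* B)
    (he : Function.Surjective e) (h : Algebra.IsAlgebraic ℤ A) : Algebra.IsAlgebraic ℤ B := by
  refine ⟨fun z => ?_⟩
  obtain ⟨w, rfl⟩ := he z
  obtain ⟨p, hp, hpw⟩ := h.1 w
  refine ⟨p, hp, ?_⟩
  have : Polynomial.aeval (e w) p = e (Polynomial.aeval w p) := by
    rw [Polynomial.aeval_def, Polynomial.aeval_def, Polynomial.hom_eval₂]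
    congr 1
    exact RingHom.ext_int _ _
  rw [this, hpw, map_zero]

set_option synthInstance.maxHeartbeats 400000 in
set_option maxHeartbeats 1000000 in
theorem quot_isAlgebraic (R : Subring K) [IsLocalRing R] (hR : AlgResZ R) (x : K)
    (M : Ideal (Algebra.adjoin R {x})) [hMmax : M.IsMaximal]
    (hM : maximalIdeal R ≤ M.comap (algebraMap R (Algebra.adjoin R {x}))) :
    Algebra.IsAlgebraic ℤ ((Algebra.adjoin R {x}) ⧸ M) := by
  have hcomap : M.comap (algebraMap R (Algebra.adjoin R {x})) = maximalIdeal R := by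
    refine ((maximalIdeal.isMaximal R).eq_of_le ?_ hM).symm
    exact Ideal.comap_ne_top _ hMmax.ne_top
  haveI : M.LiesOver (maximalIdeal R) := ⟨hcomap.symm⟩
  letI : Field (R ⧸ maximalIdeal R) := Ideal.Quotient.field _
  letI : Field ((Algebra.adjoin R {x}) ⧸ M) := Ideal.Quotient.field _
  haveI : Algebra.FiniteType R (Algebra.adjoin R {x}) :=
    (Subalgebra.fg_iff_finiteType _).mp (by
      have := Subalgebra.fg_adjoin_finset (R := R) ({x} : Finset K)
      simpa using this)
  haveI : Algebra.FiniteType (R ⧸ maximalIdeal R) ((Algebra.adjoin R {x}) ⧸ M) :=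
    algebra_finiteType_of_liesOver M (maximalIdeal R)
  haveI : Module.Finite (R ⧸ maximalIdeal R) ((Algebra.adjoin R {x}) ⧸ M) :=
    finite_of_finite_type_of_isJacobsonRing _ _
  haveI h1 : Algebra.IsAlgebraic (R ⧸ maximalIdeal R) ((Algebra.adjoin R {x}) ⧸ M) :=
    Algebra.IsAlgebraic.of_finite _ _
  haveI h2 : Algebra.IsAlgebraic ℤ (R ⧸ maximalIdeal R) := isAlgebraic_of_algResZ R hR
  exact Algebra.IsAlgebraic.trans ℤ (R ⧸ maximalIdeal R) _

theorem ext_step (R : LocalSubring K) (hR : AlgResZ R.toSubring) (x : K)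
    (M : Ideal (Algebra.adjoin R.toSubring {x})) [hMmax : M.IsMaximal]
    (hM : maximalIdeal R.toSubring ≤
      M.comap (algebraMap R.toSubring (Algebra.adjoin R.toSubring {x}))) :
    ∃ R' : LocalSubring K, R ≤ R' ∧ AlgResZ R'.toSubring ∧ x ∈ R'.toSubring := by
  let S := Algebra.adjoin R.toSubring {x}
  have hRS : R.toSubring ≤ S.toSubring := fun r hr ↦ Subalgebra.algebraMap_mem S ⟨r, hr⟩
  let M' : Ideal S.toSubring := M
  haveI : M'.IsPrime := hMmax.isPrime
  haveI : M'.IsMaximal := hMmax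
  refine ⟨LocalSubring.ofPrime S.toSubring M', ?_, ?_, ?_⟩
  · refine ⟨hRS.trans (LocalSubring.le_ofPrime ..), ((local_hom_TFAE _).out 2 0).mp ?_⟩
    conv_rhs => rw [← IsLocalization.AtPrime.map_eq_maximalIdeal M']
    have h_incl : (maximalIdeal R.toSubring).map (Subring.inclusion hRS) ≤ M' :=
      Ideal.map_le_iff_le_comap.mpr hM
    refine .trans ?_ (Ideal.map_mono h_incl)
    rw [Ideal.map_map]; rfl
  · have h1 : Algebra.IsAlgebraic ℤ (S ⧸ M) := quot_isAlgebraic R.toSubring hR x M hM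
    have e := IsLocalization.AtPrime.equivQuotMaximalIdeal M'
      (LocalSubring.ofPrime S.toSubring M').toSubring
    have h2 : Algebra.IsAlgebraic ℤ
        (ResidueField (LocalSubring.ofPrime S.toSubring M').toSubring) :=
      isAlgebraic_int_of_surjective e.toRingHom e.surjective h1
    exact algResZ_of_isAlgebraic _ h2
  · exact LocalSubring.le_ofPrime _ _ (Algebra.self_mem_adjoin_singleton _ _)

/-- key consequence of maximality -/
theorem chev_mem_of_max (R₀ R : LocalSubring K) (hmax : Maximal (· ∈ chevSet R₀) R) (x : K)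
    (M : Ideal (Algebra.adjoin R.toSubring {x})) [hMmax : M.IsMaximal]
    (hM : maximalIdeal R.toSubring ≤
      M.comap (algebraMap R.toSubring (Algebra.adjoin R.toSubring {x}))) :
    x ∈ R.toSubring := by
  obtain ⟨R', hRR', hR', hx⟩ := ext_step R hmax.1.2 x M hM
  have hle : R' ≤ R := hmax.2 ⟨hmax.1.1.trans hRR', hR'⟩ hRR'
  exact hle.1 hx

theorem chev_map_eq_top (R₀ R : LocalSubring K) (hmax : Maximal (· ∈ chevSet R₀) R) (x : K)
    (hx : x ∉ R.toSubring) :
    (maximalIdeal R.toSubring).map (algebraMap R.toSubring (Algebra.adjoin R.toSubring {x}))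
      = ⊤ := by
  by_contra hne
  obtain ⟨M, hMmax, hle⟩ := Ideal.exists_le_maximal _ hne
  exact hx (chev_mem_of_max R₀ R hmax x M (Ideal.map_le_iff_le_comap.mp hle))

theorem chev_mem_of_isIntegral (R₀ R : LocalSubring K) (hmax : Maximal (· ∈ chevSet R₀) R)
    (x : K) (hx : IsIntegral R.toSubring x) : x ∈ R.toSubring := by
  have : Algebra.IsIntegral R.toSubring (Algebra.adjoin R.toSubring {x}) :=
    Algebra.IsIntegral.adjoin (by simpa)
  obtain ⟨Q, hQ, e⟩ := Ideal.exists_ideal_over_maximal_of_isIntegral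
    (S := Algebra.adjoin R.toSubring {x}) (maximalIdeal R.toSubring)
    (le_maximalIdeal (by simp))
  exact chev_mem_of_max R₀ R hmax x Q e.ge

set_option backward.isDefEq.respectTransparency.types false in
theorem chev_valuation_of_max (R₀ R : LocalSubring K) (hmax : Maximal (· ∈ chevSet R₀) R) :
    ∃ V : ValuationSubring K, V.toLocalSubring = R := by
  suffices ∀ x ∉ R.toSubring, x⁻¹ ∈ R.toSubring from
    ⟨⟨R.toSubring, fun x ↦ or_iff_not_imp_left.mpr (this x)⟩, rfl⟩
  refine fun x hx ↦ chev_mem_of_isIntegral R₀ R hmax _ ?_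
  have hx0 : x ≠ 0 := fun e ↦ hx (e ▸ zero_mem _)
  let := invertibleOfNonzero hx0
  have ⟨p, hp, hpx⟩ := Algebra.exists_aeval_invOf_eq_zero_of_idealMap_adjoin_sup_span_eq_top x _
    (maximalIdeal.isMaximal R.toSubring).ne_top
    (top_unique <| (chev_map_eq_top R₀ R hmax x hx).ge.trans le_self_add)
  have H : IsUnit p.leadingCoeff := of_not_not fun h ↦ by simpa using sub_mem h hp
  exact ⟨.C H.unit⁻¹.1 * p, by simp [Polynomial.Monic], by simpa using .inr hpx⟩

theorem chevalleyCore : ChevalleyCoreStatement := by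
  intro K _ R hR
  have hR' : AlgResZ R.toSubring := algResZ_of_isAlgebraic _ hR
  obtain ⟨m, hRm, hmax⟩ := zorn_le_nonempty₀ (chevSet R) (chev_chain R) R ⟨le_rfl, hR'⟩
  obtain ⟨V, rfl⟩ := chev_valuation_of_max R m hmax
  refine ⟨V, hRm, fun x hx => ?_⟩
  obtain ⟨p, hp, hpx⟩ := hmax.1.2 ⟨x, hx⟩
  refine ⟨p, hp, ?_⟩
  have h1 : Polynomial.aeval x p =
      ((Polynomial.aeval (⟨x, hx⟩ : V.toLocalSubring.toSubring) p : V.toLocalSubring.toSubring) : K) :=
    aeval_coe (A := V.toLocalSubring.toSubring) ⟨x, hx⟩ p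
  rw [h1, ValuationSubring.mem_nonunits_iff_exists_mem_maximalIdeal]
  refine ⟨Subtype.property _, ?_⟩
  rw [IsLocalRing.mem_maximalIdeal, mem_nonunits_iff]
  exact hpx

end Fermat.Agent.H68.GT

end
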