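/-
P-MW row 679 (MW-GT): assembly
`GTIdentityStatement → GTHeightStatement → GTHalfStatement → GTPrincipleStatement`.
-/
import Fermat.Agent.H68.MW.GTInterfaces

set_option autoImplicit false

noncomputable section

namespace Fermat.Agent.H68.GT

open Fermat.Agent.H92.MW MvPolynomial

/-- Euler's scaling identity for homogeneous polynomials. -/
theorem aeval_mul_of_isHomogeneous {σ R S : Type*} [CommSemiring R] [CommSemiring S]
    [Algebra R S] {φ : MvPolynomial σ R} {n : ℕ} (hφ : φ.IsHomogeneous n) (c : S) (v : σ → S) :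
    aeval (fun i => c * v i) φ = c ^ n * aeval v φ := by
  rw [aeval_def, aeval_def, eval₂_eq, eval₂_eq, Finset.mul_sum]
  refine Finset.sum_congr rfl fun d hd => ?_
  have hdeg : ∑ i ∈ d.support, d i = n := (hφ.degree_eq_sum_deg_support hd).symm
  simp_rw [mul_pow]
  rw [Finset.prod_mul_distrib, Finset.prod_pow_eq_pow_sum, hdeg]
  ring

theorem gtHalf_of (hI : GTIdentityStatement) (hH : GTHeightStatement) : GTHalfStatement := by
  intro 𝓢 _ _ ιA ιB _ _ a b hdom
  classical
  have hid : ∀ j, HasHomIdentity 𝓢 a (b j) := fun j => hI 𝓢 ιA a (b j) (hdom j)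
  choose Mj Gj hGj hidj using hid
  set M : ℕ := ∑ j, Mj j with hM
  have hMj : ∀ j, Mj j ≤ M := fun j =>
    Finset.single_le_sum (f := Mj) (fun _ _ => Nat.zero_le _) (Finset.mem_univ j)
  let ρ : ιB → Option ιA → ιA ⊕ ιB := fun j o => o.elim (Sum.inr j) Sum.inl
  let G : ιB → ιA → MvPolynomial (ιA ⊕ ιB) ℚ := fun j i =>
    X (Sum.inr j) ^ (M - Mj j) * rename (ρ j) (Gj j i)
  have hG : ∀ j i, (G j i).IsHomogeneous M := by
    intro j i
    have h1 : (rename (ρ j) (Gj j i)).IsHomogeneous (Mj j) := (hGj j i).rename_isHomogeneous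
    have h2 := (isHomogeneous_X_pow (R := ℚ) (Sum.inr j : ιA ⊕ ιB) (M - Mj j)).mul h1
    have h3 : M - Mj j + Mj j = M := Nat.sub_add_cancel (hMj j)
    rw [h3] at h2
    exact h2
  have hρ : ∀ j, (Sum.elim a b) ∘ (ρ j) = fun o : Option ιA => o.elim (b j) a := by
    intro j
    funext o
    cases o <;> rfl
  have hident : ∀ j, b j ^ (M + 1) = ∑ i, aeval (Sum.elim a b) (G j i) * a i := by
    intro j
    have h1 : ∀ i, aeval (Sum.elim a b) (G j i) =
        b j ^ (M - Mj j) * aeval (fun o : Option ιA => o.elim (b j) a) (Gj j i) := by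
      intro i
      simp only [G, map_mul, map_pow, aeval_X, Sum.elim_inr, aeval_rename, hρ]
    simp_rw [h1, mul_assoc]
    rw [← Finset.mul_sum, ← hidj j, ← pow_add]
    congr 1
    have := hMj j
    omega
  obtain ⟨C, hC⟩ := hH ιA ιB M G hG
  refine ⟨C, fun y lam xa xb _ hxa hxb => hC xa xb fun j => ?_⟩
  apply (algebraMap ℚ QQbar).injective
  have hv : (fun k => lam * (Sum.elim (fun i => y (a i)) (fun j => y (b j))) k) =
      fun k => algebraMap ℚ QQbar (Sum.elim xa xb k) := by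
    funext k
    cases k with
    | inl i => exact (hxa i).symm
    | inr j => exact (hxb j).symm
  have hy : ∀ i, y (aeval (Sum.elim a b) (G j i)) =
      aeval (Sum.elim (fun i => y (a i)) (fun j => y (b j))) (G j i) := by
    intro i
    rw [comp_aeval_apply]
    congr 2
    funext k
    cases k <;> rfl
  have h2 : ∀ i, algebraMap ℚ QQbar (eval (Sum.elim xa xb) (G j i)) =
      lam ^ M * y (aeval (Sum.elim a b) (G j i)) := by
    intro i
    rw [hy, ← aeval_mul_of_isHomogeneous (hG j i), hv]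
    have h3 := comp_aeval_apply (f := Sum.elim xa xb) (Algebra.ofId ℚ QQbar) (G j i)
    simpa using h3
  rw [map_pow, hxb j, map_sum]
  simp_rw [map_mul, h2, hxa]
  rw [mul_pow, ← map_pow, hident j, map_sum, Finset.mul_sum]
  refine Finset.sum_congr rfl fun i _ => ?_
  rw [map_mul, pow_succ]
  ring

theorem gtPrinciple_of_half (h : GTHalfStatement) : GTPrincipleStatement := by
  intro 𝓢 _ _ ιA ιB _ _ a b hyp
  obtain ⟨C₁, hC₁⟩ := h 𝓢 ιA ιB a b (fun j 𝒦 _ _ _ V hV y => (hyp 𝒦 V hV y).2 j)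
  obtain ⟨C₂, hC₂⟩ := h 𝓢 ιB ιA b a (fun i 𝒦 _ _ _ V hV y => (hyp 𝒦 V hV y).1 i)
  refine ⟨max C₁ C₂, fun y lam xa xb hlam hxa hxb => ?_⟩
  have h1 := hC₁ y lam xa xb hlam hxa hxb
  have h2 := hC₂ y lam xb xa hlam hxb hxa
  rw [abs_le]
  constructor
  · have := le_max_left C₁ C₂
    linarith
  · have := le_max_right C₁ C₂
    linarith

end Fermat.Agent.H68.GT

end
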