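/-
P-MW row 679 (MW-GT): the GT principle, unconditional.
-/
import Fermat.Agent.H68.MW.ChevalleyCore
import Fermat.Agent.H68.MW.GTHalf
import Fermat.Agent.H79.MW.GTHeight
import Fermat.Agent.H57.MW.GTClear
import Fermat.Agent.H57.MW.ChevalleyAdapt
import Fermat.Agent.H12.MW.QbarValRing
import Fermat.Agent.H19.MW.GTIdentity

set_option autoImplicit false

namespace Fermat.Agent.H68.GT

/-- refined Chevalley extension theorem for finitely generated `ℚ`-algebras -/
theorem chevalleyAlg : ChevalleyAlgStatement :=
  Fermat.Agent.H57.MW.chevalleyAlg_of_core chevalleyCore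

/-- the valuative criterion -/
theorem gtIdentity : GTIdentityStatement :=
  Fermat.Agent.H19.MW.gtIdentity Fermat.Agent.H57.MW.gtClear Fermat.Agent.H12.MW.qbarValRing
    chevalleyAlg

/-- one half of the GT principle -/
theorem gtHalf : GTHalfStatement :=
  gtHalf_of gtIdentity Fermat.Agent.H79.MW.gtHeight

/-- **GT principle** (P-MW row 679). -/
theorem gtPrinciple : Fermat.Agent.H92.MW.GTPrincipleStatement :=
  gtPrinciple_of_half gtHalf

end Fermat.Agent.H68.GT
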